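import Fermat.Agent.S12.Top
import Fermat.Agent.S15.T.Key
import Fermat.Agent.S15.A.Stable

/-!
# S12 / Fin : the toric statement at all bad primes from `S15.T.key`, and the final theorem

No mirror by the Fricke involution is needed (remark of helper92): `T.key` is applied with `r :=` a bad prime where the line is not toric and `ℓ ∈ {2, 3}`, `ℓ ≠ e`;
the case `r = e` is covered by `Loc.main`, because `e ∣ p - 1` gives `2 e < p`.
-/

set_option autoImplicit false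
set_option maxHeartbeats 400000

namespace Fermat.Agent.S12.Top

open WeierstrassCurve WeierstrassCurve.Affine WeierstrassCurve.Affine.Point
open Fermat.Agent.S05 Fermat.Agent.S13 Fermat.Agent.S13.Loc
open FreyPackage

/-- a prime divisor `e` of `p - 1` (`p ≥ 5` odd) satisfies `2 e < p`. -/
theorem two_mul_lt {p e : ℕ} (hp : Odd p) (hp5 : 5 ≤ p) (he : e.Prime) (hep : e ∣ p - 1) :
    2 * e < p := by
  obtain ⟨m, hm⟩ := hep
  obtain ⟨k, hk⟩ := hp
  have hm0 : m ≠ 0 := by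
    rintro rfl
    omega
  have hm1 : m ≠ 1 := by
    rintro rfl
    rw [mul_one] at hm
    have h2 : 2 ∣ e := ⟨k, by omega⟩
    have := (Nat.prime_dvd_prime_iff_eq Nat.prime_two he).mp h2
    omega
  have hm2 : 2 ≤ m := by omega
  have : e * 2 ≤ e * m := Nat.mul_le_mul_left e hm2
  omega

/-- **The line is toric at every bad prime `r ≠ p`.** -/
theorem inZero_all (P : FreyPackage) (hp : 17 ≤ P.p)
    (Q : (((Loc.Wf P).map (Int.castRingHom ℚ))⁄Qb).Point) (hord : addOrderOf Q = P.p)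
    (hst : ∀ σ : GQ, ∃ k : ℕ, σ • Q = k • Q)
    (h23 : ∀ ℓ : ℕ, ℓ.Prime → 2 * ℓ < P.p →
      (ℓ : ℤ) ∣ (Loc.Wf P).Δ ∧ ¬ (ℓ : ℤ) ∣ (Loc.Wf P).c₄ ∧
        ∀ A : ValuationSubring Qb, A.LiesOverPrime ℓ → (Loc.Wf P).InZeroComponentAt A Q)
    {r : ℕ} (hr : r.Prime) (hrp : r ≠ P.p) (hrΔ : (r : ℤ) ∣ (Loc.Wf P).Δ)
    (hrc : ¬ (r : ℤ) ∣ (Loc.Wf P).c₄) (Ar : ValuationSubring Qb) (hAr : Ar.LiesOverPrime r) :
    (Loc.Wf P).InZeroComponentAt Ar Q := by
  haveI : Fact P.p.Prime := ⟨P.pp⟩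
  haveI : NeZero P.p := ⟨P.hp0⟩
  by_contra hnot
  have hp' : P.p ∉ ({2, 3, 5, 7, 13} : Finset ℕ) := by
    simp only [Finset.mem_insert, Finset.mem_singleton, not_or]
    omega
  obtain ⟨h2Δ, h2c, h2⟩ := h23 2 Nat.prime_two (by omega)
  obtain ⟨h3Δ, h3c, h3⟩ := h23 3 Nat.prime_three (by omega)
  obtain ⟨x, c, -, -, -, hx, hloc, hgal⟩ :=
    S15.A.main_of_rat (p := P.p) (by omega) (Loc.Wf_Δ_ne_zero P) Q
      (S15.A.h0_mem_rat_of_stable Q hord hst) hord h2c
  obtain ⟨A2, hA2⟩ := exists_valuationSubring_liesOver 2 Nat.prime_two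
  obtain ⟨A3, hA3⟩ := exists_valuationSubring_liesOver 3 Nat.prime_three
  have hfix := hgal ⟨2, A2, Nat.prime_two, by omega, h2Δ, h2c, hA2, h2 A2 hA2⟩
  obtain ⟨e, he, hep, hkey⟩ := S15.T.key (p := P.p) hp'
  have hlt := (hloc r hr hrp hrΔ hrc Ar hAr).2 hnot
  by_cases her : e = r
  · subst her
    exact hnot ((h23 e he (two_mul_lt P.hp_odd P.hp5 he hep)).2.2 Ar hAr)
  · by_cases he2 : e = 2
    · exact hkey x hfix _ hx r Ar 3 A3 hr hrp her hAr hlt Nat.prime_three (by omega)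
        (fun h => by omega) hA3
        ((hloc 3 Nat.prime_three (by omega) h3Δ h3c A3 hA3).1 (h3 A3 hA3))
    · exact hkey x hfix _ hx r Ar 2 A2 hr hrp her hAr hlt Nat.prime_two (by omega)
        (fun h => absurd h.symm he2) hA2
        ((hloc 2 Nat.prime_two (by omega) h2Δ h2c A2 hA2).1 (h2 A2 hA2))

/-- **Toric generator on the integral model.** -/
theorem exists_toric_int' (P : FreyPackage) (hp : 17 ≤ P.p)
    (h : HasGaloisStableCofixedLine (K := AlgebraicClosure ℚ) ℚ P.freyCurve P.p) :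
    ∃ T0 : (((Loc.Wf P).map (Int.castRingHom ℚ))⁄Qb).Point,
      Toric P.p ((Loc.Wf P).map (Int.castRingHom ℚ)) T0 := by
  obtain ⟨Q, hord, hst, h23⟩ := Loc.main P h
  refine ⟨Q, hord, hst, fun l hl hlp A hA e κ β hc he hκ hβ => ?_⟩
  obtain ⟨hlΔ, hlc⟩ := mult_of_centre (Loc.Wf P) hl A hA hc hκ hβ
  exact (S15.A.Loc.inZeroComponentAt_iff A hc he hκ hβ Q).mp
    (inZero_all P hp Q hord hst h23 hl hlp hlΔ hlc A hA)

/-- **Toric generator on the Frey curve.** -/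
theorem exists_toric' (P : FreyPackage) (hp : 17 ≤ P.p)
    (h : HasGaloisStableCofixedLine (K := AlgebraicClosure ℚ) ℚ P.freyCurve P.p) :
    ∃ T0 : (P.freyCurve⁄Qb).Point, Toric P.p P.freyCurve T0 := by
  rw [Loc.freyCurve_eq P]
  exact exists_toric_int' P hp h

/-- **S12.** -/
theorem final (P : FreyPackage) (hp : 17 ≤ P.p) :
    ¬ HasGaloisStableCofixedLine (K := AlgebraicClosure ℚ) ℚ P.freyCurve P.p := by
  intro h
  obtain ⟨T0, hord, hst, htor⟩ := exists_toric' P hp h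
  refine AtP.key' P (by omega) hord hst (fun l hl hlp _ => ?_)
  obtain ⟨A, hA⟩ := exists_valuationSubring_liesOver l hl
  exact ⟨A, hA, htor l hl hlp A hA⟩

end Fermat.Agent.S12.Top
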