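import Fermat.Agent.S12.Loc.Export
import Fermat.Agent.S12.Real.Frey
import Fermat.Agent.S12.AtP.Key
import Fermat.Agent.S15.A.Loc

/-!
# S12 / Top : assembly

`Loc.main` (cofixed line ⟹ generator `Q` on the integral model, toric at `2`, `3`) + `DualS15` (= `M.dual`, toric at `2`, `3` ⟹ toric at every bad `l ≠ p`)
+ transport to `P.freyCurve⁄Qb` + `AtP.key'` (= steps 1, 2, 3: toric at every bad `l ≠ p` ⟹ `False`).
-/

set_option autoImplicit false
set_option maxHeartbeats 400000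

namespace Fermat.Agent.S12.Top

open WeierstrassCurve WeierstrassCurve.Affine WeierstrassCurve.Affine.Point
open Fermat.Agent.S05 Fermat.Agent.S13 Fermat.Agent.S13.Loc
open FreyPackage

/-- the statement of `M.dual` (the mirror of S15 for a Galois stable subgroup of order `p`). -/
def DualS15 (p : ℕ) : Prop :=
  ∀ (W : WeierstrassCurve ℤ) (_ : W.Δ ≠ 0)
    (Q : ((W.map (Int.castRingHom ℚ))⁄Qb).Point)
    (_ : ∀ σ : GQ, ∃ k : ℕ, σ • Q = k • Q) (_ : addOrderOf Q = p)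
    (_ : (2 : ℤ) ∣ W.Δ) (_ : ¬ (2 : ℤ) ∣ W.c₄)
    (_ : ∀ A : ValuationSubring Qb, A.LiesOverPrime 2 → W.InZeroComponentAt A Q)
    (_ : (3 : ℤ) ∣ W.Δ) (_ : ¬ (3 : ℤ) ∣ W.c₄)
    (_ : ∀ A : ValuationSubring Qb, A.LiesOverPrime 3 → W.InZeroComponentAt A Q)
    {l : ℕ} (_ : l.Prime) (_ : l ≠ p) (_ : (l : ℤ) ∣ W.Δ) (_ : ¬ (l : ℤ) ∣ W.c₄)
    (A : ValuationSubring Qb) (_ : A.LiesOverPrime l), W.InZeroComponentAt A Q

/-- `T0` lies in the zero component at `A` (in terms of rational centres). -/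
def ToricAt (W' : WeierstrassCurve ℚ) (T0 : (W'⁄Qb).Point) (A : ValuationSubring Qb) : Prop :=
  ∀ e κ β : ℚ,
    Centre (W'⁄Qb) (algebraMap ℚ Qb e) (algebraMap ℚ Qb κ) (algebraMap ℚ Qb β) →
    A.valuation (algebraMap ℚ Qb e) ≤ 1 → A.valuation (algebraMap ℚ Qb κ) < 1 →
    A.valuation (algebraMap ℚ Qb β) = 1 → InE0 A.valuation (algebraMap ℚ Qb e) T0

/-- a generator of a Galois stable line which is toric at all places not above `p`. -/
def Toric (p : ℕ) (W' : WeierstrassCurve ℚ) (T0 : (W'⁄Qb).Point) : Prop :=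
  addOrderOf T0 = p ∧ (∀ σ : GQ, ∃ k : ℕ, σ • T0 = k • T0) ∧
    ∀ l : ℕ, l.Prime → l ≠ p → ∀ A : ValuationSubring Qb, A.LiesOverPrime l → ToricAt W' T0 A

/-- a centre with `|κ| < 1 = |β|` only exists at primes of multiplicative reduction. -/
theorem mult_of_centre (W : WeierstrassCurve ℤ) {l : ℕ} (hl : l.Prime) (A : ValuationSubring Qb)
    (hA : A.LiesOverPrime l) {e κ β : Qb} (hc : Centre (S15.A.Loc.EQ W) e κ β)
    (hκ : A.valuation κ < 1) (hβ : A.valuation β = 1) :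
    (l : ℤ) ∣ W.Δ ∧ ¬ (l : ℤ) ∣ W.c₄ := by
  have hn : ∀ n : ℕ, A.valuation ((n : Qb) * κ) < 1 := by
    intro n
    rw [map_mul]
    exact lt_of_le_of_lt (mul_le_of_le_one_left' (v_natCast_le_one A.valuation n)) hκ
  have hβ2 : A.valuation (β ^ 2) = 1 := by rw [map_pow, hβ, one_pow]
  constructor
  · apply (val_int A hl hA W.Δ).2.mp
    rw [← S15.A.Loc.EQ_Δ, S15.A.Loc.centre_Δ hc, map_mul, map_pow]
    have h1 : A.valuation (β ^ 2 - 64 * κ) ≤ 1 := by
      refine A.valuation.map_sub_le hβ2.le ?_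
      have := hn 64
      push_cast at this
      exact this.le
    exact lt_of_le_of_lt (mul_le_of_le_one_right' h1) (pow_lt_one₀ zero_le hκ two_ne_zero)
  · intro hd
    have h1 := (val_int A hl hA W.c₄).2.mpr hd
    rw [← S15.A.Loc.EQ_c₄, S15.A.Loc.centre_c₄ hc] at h1
    have h2 : A.valuation (β ^ 2 - 48 * κ) = 1 := by
      rw [A.valuation.map_sub_eq_of_lt_left, hβ2]
      rw [hβ2]
      have := hn 48
      push_cast at this
      exact this
    rw [h2] at h1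
    exact lt_irrefl _ h1

/-- **Toric generator on the integral model.** -/
theorem exists_toric_int (P : FreyPackage) (hp : 17 ≤ P.p) (hdual : DualS15 P.p)
    (h : HasGaloisStableCofixedLine (K := AlgebraicClosure ℚ) ℚ P.freyCurve P.p) :
    ∃ T0 : (((Loc.Wf P).map (Int.castRingHom ℚ))⁄Qb).Point,
      Toric P.p ((Loc.Wf P).map (Int.castRingHom ℚ)) T0 := by
  obtain ⟨Q, hord, hst, h23⟩ := Loc.main P h
  obtain ⟨h2Δ, h2c, h2⟩ := h23 2 Nat.prime_two (by omega)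
  obtain ⟨h3Δ, h3c, h3⟩ := h23 3 Nat.prime_three (by omega)
  refine ⟨Q, hord, hst, fun l hl hlp A hA e κ β hc he hκ hβ => ?_⟩
  obtain ⟨hlΔ, hlc⟩ := mult_of_centre (Loc.Wf P) hl A hA hc hκ hβ
  exact (S15.A.Loc.inZeroComponentAt_iff A hc he hκ hβ Q).mp
    (hdual (Loc.Wf P) (Loc.Wf_Δ_ne_zero P) Q hst hord h2Δ h2c h2 h3Δ h3c h3 hl hlp hlΔ hlc A hA)

/-- **Toric generator on the Frey curve.** -/
theorem exists_toric (P : FreyPackage) (hp : 17 ≤ P.p) (hdual : DualS15 P.p)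
    (h : HasGaloisStableCofixedLine (K := AlgebraicClosure ℚ) ℚ P.freyCurve P.p) :
    ∃ T0 : (P.freyCurve⁄Qb).Point, Toric P.p P.freyCurve T0 := by
  rw [Loc.freyCurve_eq P]
  exact exists_toric_int P hp hdual h

/-- **S12 from its parts.** -/
theorem main (P : FreyPackage) (hp : 17 ≤ P.p) (hdual : DualS15 P.p) :
    ¬ HasGaloisStableCofixedLine (K := AlgebraicClosure ℚ) ℚ P.freyCurve P.p := by
  intro h
  obtain ⟨T0, hord, hst, htor⟩ := exists_toric P hp hdual h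
  refine AtP.key' P (by omega) hord hst (fun l hl hlp _ => ?_)
  obtain ⟨A, hA⟩ := exists_valuationSubring_liesOver l hl
  exact ⟨A, hA, htor l hl hlp A hA⟩

end Fermat.Agent.S12.Top
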